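import Mathlib
import Fermat.Agent.S25.DefsAlg

/-!
# S27 / DIM (helper551): the ring `k[ε] ⊗[k] B`

Calculus in `k[ε] ⊗[k] B` (`k[ε] = TrivSqZeroExt k k`, Mathlib's `DualNumber k`):

* `dRed`   : reduction mod `ε`, `= tensorMapLeft k (fstHom k k k) B` (a ring hom);
* `dInc`   : inclusion of the constants `k ⊗ B → k[ε] ⊗ B` (a ring hom);
* `dCoeff` : the `ε`-coefficient (`k`-linear);
* `dEps`   : `h ↦ ε h` (`k`-linear);

with `x = dInc (dRed x) + dEps (dCoeff x)`, the Leibniz rule for `dCoeff`, `ker dRed` is a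
square-zero ideal, and compatibility with `algebraMap (k[ε] ⊗ B) (k[ε] ⊗ B')`.
-/

set_option autoImplicit false
set_option linter.style.haveILetI false
set_option linter.unusedSectionVars false

universe u

open scoped TensorProduct

namespace Fermat.Agent.S27.H551

open Fermat.Agent.S25 TrivSqZeroExt

noncomputable section

variable (k : Type u) [Field k]

/-- The dual numbers `k[ε]`: a type synonym of Mathlib's `TrivSqZeroExt k k` (`= DualNumber k`)
carrying only the `CommRing` and `Algebra k` structures, so that tensor products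
`DualNum k ⊗[k] B` elaborate with the module structure coming from the algebra structure
(as for a generic `k`-algebra). -/
def DualNum : Type u := TrivSqZeroExt k k

instance DualNum.instCommRing : CommRing (DualNum k) :=
  inferInstanceAs (CommRing (TrivSqZeroExt k k))

instance DualNum.instAlgebra : Algebra k (DualNum k) :=
  inferInstanceAs (Algebra k (TrivSqZeroExt k k))

instance DualNum.instIsLocalRing : IsLocalRing (DualNum k) :=
  inferInstanceAs (IsLocalRing (DualNumber k))

/-- The augmentation `k[ε] → k`, `a + bε ↦ a`. -/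
def dAug : DualNum k →ₐ[k] k := fstHom k k k

/-- The `ε`-coefficient `k[ε] → k`, `a + bε ↦ b`. -/
def dSnd : DualNum k →ₗ[k] k := sndHom k k

/-- The constants `k → k[ε]`. -/
def dInl : k →ₐ[k] DualNum k := inlAlgHom k k k

/-- `b ↦ bε`. -/
def dInr : k →ₗ[k] DualNum k := inrHom k k

variable {k}

@[simp] theorem dAug_dInl (c : k) : dAug k (dInl k c) = c := rfl
@[simp] theorem dSnd_dInl (c : k) : dSnd k (dInl k c) = 0 := rfl
@[simp] theorem dAug_dInr (c : k) : dAug k (dInr k c) = 0 := rfl
@[simp] theorem dSnd_dInr (c : k) : dSnd k (dInr k c) = c := rfl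

theorem dInl_dAug_add_dInr_dSnd (a : DualNum k) : dInl k (dAug k a) + dInr k (dSnd k a) = a :=
  inl_fst_add_inr_snd_eq a

theorem dSnd_mul (a b : DualNum k) :
    dSnd k (a * b) = dAug k a * dSnd k b + dSnd k a * dAug k b := by
  have h : dSnd k (a * b) = dAug k a • dSnd k b + MulOpposite.op (dAug k b) • dSnd k a :=
    TrivSqZeroExt.snd_mul (R := k) (M := k) a b
  rw [h, smul_eq_mul, MulOpposite.smul_eq_mul_unop, MulOpposite.unop_op]

theorem dSnd_one : dSnd k (1 : DualNum k) = 0 := rfl

theorem dualNum_ext {a b : DualNum k} (h₁ : dAug k a = dAug k b) (h₂ : dSnd k a = dSnd k b) :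
    a = b :=
  TrivSqZeroExt.ext h₁ h₂

theorem dInr_mul_dInr (c c' : k) : dInr k c * dInr k c' = 0 := by
  apply dualNum_ext
  · rw [map_mul, dAug_dInr, zero_mul, map_zero]
  · rw [dSnd_mul, dAug_dInr, dAug_dInr, zero_mul, mul_zero, add_zero, map_zero]

theorem dAug_surjective : Function.Surjective (dAug k) := fun c => ⟨dInl k c, rfl⟩

theorem mul_eq_zero_of_dAug {a b : DualNum k} (ha : dAug k a = 0) (hb : dAug k b = 0) :
    a * b = 0 := by
  apply dualNum_ext
  · rw [map_mul, ha, zero_mul, map_zero]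
  · rw [dSnd_mul, ha, hb, zero_mul, mul_zero, add_zero, map_zero]

theorem ker_dAug_sq : (RingHom.ker (dAug k : DualNum k →+* k)) ^ 2 = ⊥ := by
  rw [pow_two, eq_bot_iff, Ideal.mul_le]
  intro a ha b hb
  rw [RingHom.mem_ker] at ha hb
  rw [Ideal.mem_bot]
  exact mul_eq_zero_of_dAug ha hb

variable (k)
variable (B : Type u) [CommRing B] [Algebra k B]

/-- Reduction modulo `ε`. -/
abbrev dRed : DualNum k ⊗[k] B →+* k ⊗[k] B := tensorMapLeft k (dAug k) B

/-- Inclusion of the constants. -/
def dInc : k ⊗[k] B →+* DualNum k ⊗[k] B :=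
  tensorMapLeft k (dInl k) B

/-- The `ε`-coefficient. -/
def dCoeff : DualNum k ⊗[k] B →ₗ[k] k ⊗[k] B :=
  LinearMap.rTensor B (dSnd k)

/-- `h ↦ ε h`. -/
def dEps : k ⊗[k] B →ₗ[k] DualNum k ⊗[k] B :=
  LinearMap.rTensor B (dInr k)

variable {k B}

@[simp] theorem dRed_tmul (a : DualNum k) (b : B) :
    dRed k B (a ⊗ₜ[k] b) = dAug k a ⊗ₜ[k] b := rfl

@[simp] theorem dInc_tmul (c : k) (b : B) :
    dInc k B (c ⊗ₜ[k] b) = dInl k c ⊗ₜ[k] b := rfl

@[simp] theorem dCoeff_tmul (a : DualNum k) (b : B) :
    dCoeff k B (a ⊗ₜ[k] b) = dSnd k a ⊗ₜ[k] b := rfl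

@[simp] theorem dEps_tmul (c : k) (b : B) :
    dEps k B (c ⊗ₜ[k] b) = dInr k c ⊗ₜ[k] b := rfl

theorem dRed_dInc (h : k ⊗[k] B) : dRed k B (dInc k B h) = h := by
  induction h using TensorProduct.induction_on with
  | zero => simp
  | tmul c b => simp
  | add x y hx hy => rw [map_add, map_add, hx, hy]

theorem dCoeff_dEps (h : k ⊗[k] B) : dCoeff k B (dEps k B h) = h := by
  induction h using TensorProduct.induction_on with
  | zero => simp
  | tmul c b => simp
  | add x y hx hy => rw [map_add, map_add, hx, hy]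

theorem dRed_dEps (h : k ⊗[k] B) : dRed k B (dEps k B h) = 0 := by
  induction h using TensorProduct.induction_on with
  | zero => simp
  | tmul c b => simp
  | add x y hx hy => rw [map_add, map_add, hx, hy, add_zero]

theorem dCoeff_dInc (h : k ⊗[k] B) : dCoeff k B (dInc k B h) = 0 := by
  induction h using TensorProduct.induction_on with
  | zero => simp
  | tmul c b => simp
  | add x y hx hy => rw [map_add, map_add, hx, hy, add_zero]

theorem dCoeff_one : dCoeff k B 1 = 0 := by
  rw [Algebra.TensorProduct.one_def, dCoeff_tmul, dSnd_one, TensorProduct.zero_tmul]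

/-- Decomposition `x = x₀ + ε x₁`. -/
theorem dInc_dRed_add_dEps_dCoeff (x : DualNum k ⊗[k] B) :
    dInc k B (dRed k B x) + dEps k B (dCoeff k B x) = x := by
  induction x using TensorProduct.induction_on with
  | zero => simp
  | tmul a b =>
    rw [dRed_tmul, dInc_tmul, dCoeff_tmul, dEps_tmul, ← TensorProduct.add_tmul,
      dInl_dAug_add_dInr_dSnd]
  | add x y hx hy =>
    rw [map_add, map_add, map_add, map_add]
    calc dInc k B (dRed k B x) + dInc k B (dRed k B y) +
          (dEps k B (dCoeff k B x) + dEps k B (dCoeff k B y))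
        = (dInc k B (dRed k B x) + dEps k B (dCoeff k B x)) +
          (dInc k B (dRed k B y) + dEps k B (dCoeff k B y)) := by abel
      _ = x + y := by rw [hx, hy]

theorem eq_zero_of_dRed_of_dCoeff {x : DualNum k ⊗[k] B} (h₁ : dRed k B x = 0)
    (h₂ : dCoeff k B x = 0) : x = 0 := by
  rw [← dInc_dRed_add_dEps_dCoeff x, h₁, h₂, map_zero, map_zero, add_zero]

theorem dEps_dCoeff_of_dRed_eq_zero {x : DualNum k ⊗[k] B} (h : dRed k B x = 0) :
    dEps k B (dCoeff k B x) = x := by
  have := dInc_dRed_add_dEps_dCoeff x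
  rwa [h, map_zero, zero_add] at this

/-- Leibniz rule for the `ε`-coefficient. -/
theorem dCoeff_mul (x y : DualNum k ⊗[k] B) :
    dCoeff k B (x * y) = dRed k B x * dCoeff k B y + dCoeff k B x * dRed k B y := by
  induction x using TensorProduct.induction_on with
  | zero => simp only [zero_mul, map_zero, add_zero]
  | tmul a b =>
    induction y using TensorProduct.induction_on with
    | zero => simp only [mul_zero, map_zero, add_zero]
    | tmul a' b' =>
      rw [Algebra.TensorProduct.tmul_mul_tmul, dCoeff_tmul, dRed_tmul, dRed_tmul, dCoeff_tmul,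
        dCoeff_tmul, Algebra.TensorProduct.tmul_mul_tmul, Algebra.TensorProduct.tmul_mul_tmul,
        ← TensorProduct.add_tmul, dSnd_mul]
    | add y y' hy hy' =>
      rw [mul_add, map_add, hy, hy', map_add, map_add, mul_add, mul_add]
      abel
  | add x x' hx hx' =>
    rw [add_mul, map_add, hx, hx', map_add, map_add, add_mul, add_mul]
    abel

/-- The kernel of the reduction is a square-zero ideal. -/
theorem mul_eq_zero_of_dRed {x y : DualNum k ⊗[k] B} (hx : dRed k B x = 0)
    (hy : dRed k B y = 0) : x * y = 0 := by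
  apply eq_zero_of_dRed_of_dCoeff
  · rw [map_mul, hx, zero_mul]
  · rw [dCoeff_mul, hx, hy, zero_mul, mul_zero, add_zero]

theorem dEps_mul_dEps (h h' : k ⊗[k] B) : dEps k B h * dEps k B h' = 0 :=
  mul_eq_zero_of_dRed (dRed_dEps h) (dRed_dEps h')

section Compat

variable {B' : Type u} [CommRing B'] [Algebra k B'] [Algebra B B'] [IsScalarTower k B B']

theorem algebraMap_tensor_tmul (A : Type u) [CommRing A] [Algebra k A] (a : A) (b : B) :
    algebraMap (A ⊗[k] B) (A ⊗[k] B') (a ⊗ₜ[k] b) = a ⊗ₜ[k] algebraMap B B' b := rfl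

theorem dRed_algebraMap (x : DualNum k ⊗[k] B) :
    dRed k B' (algebraMap (DualNum k ⊗[k] B) (DualNum k ⊗[k] B') x) =
      algebraMap (k ⊗[k] B) (k ⊗[k] B') (dRed k B x) := by
  induction x using TensorProduct.induction_on with
  | zero => simp
  | tmul a b => rfl
  | add x y hx hy => rw [map_add, map_add, map_add, map_add, hx, hy]

theorem dCoeff_algebraMap (x : DualNum k ⊗[k] B) :
    dCoeff k B' (algebraMap (DualNum k ⊗[k] B) (DualNum k ⊗[k] B') x) =
      algebraMap (k ⊗[k] B) (k ⊗[k] B') (dCoeff k B x) := by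
  induction x using TensorProduct.induction_on with
  | zero => simp
  | tmul a b => rfl
  | add x y hx hy => rw [map_add, map_add, map_add, map_add, hx, hy]

theorem dEps_algebraMap (h : k ⊗[k] B) :
    dEps k B' (algebraMap (k ⊗[k] B) (k ⊗[k] B') h) =
      algebraMap (DualNum k ⊗[k] B) (DualNum k ⊗[k] B') (dEps k B h) := by
  induction h using TensorProduct.induction_on with
  | zero => simp
  | tmul a b => rfl
  | add x y hx hy => rw [map_add, map_add, map_add, map_add, hx, hy]

end Compat

/-- The unit `1 + ε h`. -/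
def dUnit (h : k ⊗[k] B) : (DualNum k ⊗[k] B)ˣ where
  val := 1 + dEps k B h
  inv := 1 - dEps k B h
  val_inv := by
    have := dEps_mul_dEps h h
    calc (1 + dEps k B h) * (1 - dEps k B h) = 1 - dEps k B h * dEps k B h := by ring
      _ = 1 := by rw [this, sub_zero]
  inv_val := by
    have := dEps_mul_dEps h h
    calc (1 - dEps k B h) * (1 + dEps k B h) = 1 - dEps k B h * dEps k B h := by ring
      _ = 1 := by rw [this, sub_zero]

@[simp] theorem val_dUnit (h : k ⊗[k] B) :
    ((dUnit h : (DualNum k ⊗[k] B)ˣ) : DualNum k ⊗[k] B) = 1 + dEps k B h := rfl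

theorem dRed_dUnit (h : k ⊗[k] B) : dRed k B (dUnit h : (DualNum k ⊗[k] B)ˣ) = 1 := by
  rw [val_dUnit, map_add, map_one, dRed_dEps, add_zero]

theorem dCoeff_dUnit (h : k ⊗[k] B) :
    dCoeff k B (dUnit h : (DualNum k ⊗[k] B)ˣ) = h := by
  rw [val_dUnit, map_add, dCoeff_one, dCoeff_dEps, zero_add]

/-- Every element reducing to `1` is `1 + ε h`. -/
theorem eq_one_add_dEps_of_dRed {x : DualNum k ⊗[k] B} (hx : dRed k B x = 1) :
    x = 1 + dEps k B (dCoeff k B x) := by
  have h1 : dRed k B (x - 1) = 0 := by rw [map_sub, hx, map_one, sub_self]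
  have h2 := dEps_dCoeff_of_dRed_eq_zero h1
  rw [map_sub, dCoeff_one, sub_zero] at h2
  rw [h2]; ring

end

end Fermat.Agent.S27.H551
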