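import Mathlib
import Fermat.Agent.S25.DefsAlg
import Fermat.Agent.S25.H731.Twist
import Fermat.Agent.S25.H551.AlgDefSemi

/-!
# S27 / DIM (helper551): gluing data which are trivial modulo a nil ideal — cospan level

Pure algebra on the S25 `GlueDatum`s over a cospan `R₀ → R₀₁ ← R₁`.

* `unitTwist u` : the unit datum with `r₁` multiplied by the unit `u` of `R₀₁`
  (`= H731.twist unit u`).
* `unitTwist_isIso_iff` : `unitTwist u ≅ unitTwist u'` iff `u * a₀ = u' * a₁` for units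
  `a₀ ∈ R₀`, `a₁ ∈ R₁`.
* `exists_unitTwist_isIso` : a gluing datum whose base change along surjections with nil
  kernels `ρ₀, ρ₁` is the unit datum is isomorphic to `unitTwist u` with `ρ₀₁ u = 1`.
* `isBC_unitTwist` : base change of `unitTwist u` is `unitTwist (ρ₀₁ u)`.
-/

set_option autoImplicit false
set_option linter.style.haveILetI false
set_option linter.unusedSectionVars false

universe u

open scoped TensorProduct

namespace Fermat.Agent.S27.H551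

open Fermat.Agent.S25

noncomputable section

section Generic

variable {A R₀ R₁ R₀₁ : Type u} [CommRing A] [CommRing R₀] [CommRing R₁]
    [CommRing R₀₁] [Algebra A R₀] [Algebra A R₁] [Algebra A R₀₁] [Algebra R₀ R₀₁]
    [Algebra R₁ R₀₁] [IsScalarTower A R₀ R₀₁] [IsScalarTower A R₁ R₀₁]

variable (A R₀ R₁) in
/-- The unit gluing datum twisted by a unit `u` of `R₀₁`: `(R₀, R₁, R₀₁, can, u • can)`. -/
abbrev unitTwist (u : R₀₁ˣ) : GlueDatum A R₀ R₁ R₀₁ :=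
  H731.twist (GlueDatum.unit A R₀ R₁ R₀₁) u

theorem unitTwist_r₀ (u : R₀₁ˣ) (s : R₀) :
    (unitTwist A R₀ R₁ u).r₀ s = algebraMap R₀ R₀₁ s := rfl

theorem unitTwist_r₁ (u : R₀₁ˣ) (s : R₁) :
    (unitTwist A R₀ R₁ u).r₁ s = (u : R₀₁) * algebraMap R₁ R₀₁ s := rfl

/-- The twist by `1` is the unit datum. -/
theorem unitTwist_one_isIso :
    (unitTwist A R₀ R₁ (1 : R₀₁ˣ)).IsIso (GlueDatum.unit A R₀ R₁ R₀₁) :=
  ⟨{ e₀ := LinearEquiv.refl R₀ R₀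
     e₁ := LinearEquiv.refl R₁ R₁
     e₀₁ := LinearEquiv.refl R₀₁ R₀₁
     comm₀ := fun (s : R₀) => rfl
     comm₁ := fun (s : R₁) => by
      show ((1 : R₀₁ˣ) : R₀₁) * algebraMap R₁ R₀₁ s = algebraMap R₁ R₀₁ s
      rw [Units.val_one, one_mul] }⟩

/-- Isomorphisms between twists of the unit datum. -/
theorem unitTwist_isIso_iff (u u' : R₀₁ˣ) :
    (unitTwist A R₀ R₁ u).IsIso (unitTwist A R₀ R₁ u') ↔
      ∃ (a₀ : R₀ˣ) (a₁ : R₁ˣ),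
        (u : R₀₁) * algebraMap R₀ R₀₁ a₀ = (u' : R₀₁) * algebraMap R₁ R₀₁ a₁ := by
  constructor
  · rintro ⟨e⟩
    let f₀ : R₀ ≃ₗ[R₀] R₀ := e.e₀
    let f₁ : R₁ ≃ₗ[R₁] R₁ := e.e₁
    let f₀₁ : R₀₁ ≃ₗ[R₀₁] R₀₁ := e.e₀₁
    have c0 : f₀₁ (algebraMap R₀ R₀₁ 1) = algebraMap R₀ R₀₁ (f₀ 1) := e.comm₀ (1 : R₀)
    have c1 : f₀₁ ((u : R₀₁) * algebraMap R₁ R₀₁ 1) = (u' : R₀₁) * algebraMap R₁ R₀₁ (f₁ 1) :=
      e.comm₁ (1 : R₁)
    have h01 : ∀ s : R₀₁, f₀₁ s = s * f₀₁ 1 := fun s => by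
      have := f₀₁.map_smul s (1 : R₀₁)
      rw [smul_eq_mul, mul_one] at this
      rw [this, smul_eq_mul]
    have u0 : f₀ 1 * f₀.symm 1 = 1 := by
      have h := f₀.apply_symm_apply 1
      have h2 := f₀.map_smul (f₀.symm 1) (1 : R₀)
      rw [smul_eq_mul, mul_one, smul_eq_mul] at h2
      rw [h2] at h
      rw [mul_comm]; exact h
    have u1 : f₁ 1 * f₁.symm 1 = 1 := by
      have h := f₁.apply_symm_apply 1
      have h2 := f₁.map_smul (f₁.symm 1) (1 : R₁)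
      rw [smul_eq_mul, mul_one, smul_eq_mul] at h2
      rw [h2] at h
      rw [mul_comm]; exact h
    refine ⟨⟨f₀ 1, f₀.symm 1, u0, by rw [mul_comm]; exact u0⟩,
      ⟨f₁ 1, f₁.symm 1, u1, by rw [mul_comm]; exact u1⟩, ?_⟩
    rw [map_one] at c0
    rw [map_one, mul_one, h01, c0] at c1
    exact c1
  · rintro ⟨a₀, a₁, h⟩
    refine ⟨{ e₀ := LinearEquiv.smulOfUnit a₀
              e₁ := LinearEquiv.smulOfUnit a₁
              e₀₁ := LinearEquiv.smulOfUnit (Units.map (algebraMap R₀ R₀₁).toMonoidHom a₀)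
              comm₀ := fun (s : R₀) => ?_
              comm₁ := fun (s : R₁) => ?_ }⟩
    · show (algebraMap R₀ R₀₁ a₀) * algebraMap R₀ R₀₁ s = algebraMap R₀ R₀₁ ((a₀ : R₀) * s)
      rw [map_mul]
    · show (algebraMap R₀ R₀₁ a₀) * ((u : R₀₁) * algebraMap R₁ R₀₁ s) =
        (u' : R₀₁) * algebraMap R₁ R₀₁ ((a₁ : R₁) * s)
      rw [map_mul, ← mul_assoc, ← mul_assoc, ← h]
      ring

variable {A' R₀' R₁' R₀₁' : Type u} [CommRing A'] [CommRing R₀'] [CommRing R₁']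
    [CommRing R₀₁'] [Algebra A' R₀'] [Algebra A' R₁'] [Algebra A' R₀₁'] [Algebra R₀' R₀₁']
    [Algebra R₁' R₀₁'] [IsScalarTower A' R₀' R₀₁'] [IsScalarTower A' R₁' R₀₁']

/-- Base change of a twist of the unit datum along a morphism of cospans. -/
theorem isBC_unitTwist (ρ₀ : R₀ →+* R₀') (ρ₁ : R₁ →+* R₁') (ρ₀₁ : R₀₁ →+* R₀₁')
    (h₀ : ∀ r, ρ₀₁ (algebraMap R₀ R₀₁ r) = algebraMap R₀' R₀₁' (ρ₀ r))
    (h₁ : ∀ r, ρ₀₁ (algebraMap R₁ R₀₁ r) = algebraMap R₁' R₀₁' (ρ₁ r)) (u : R₀₁ˣ) :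
    GlueDatum.IsBC ρ₀ ρ₁ ρ₀₁ (unitTwist A R₀ R₁ u)
      (unitTwist A' R₀' R₁' (Units.map ρ₀₁.toMonoidHom u)) :=
  ⟨{ b₀ := ρ₀.toSemilinearMap
     b₁ := ρ₁.toSemilinearMap
     b₀₁ := ρ₀₁.toSemilinearMap
     comm₀ := fun (s : R₀) => h₀ s
     comm₁ := fun (s : R₁) => by
      show ρ₀₁ ((u : R₀₁) * algebraMap R₁ R₀₁ s) = ρ₀₁ u * algebraMap R₁' R₀₁' (ρ₁ s)
      rw [map_mul, h₁]
     isBaseChange₀ := by
      letI : Algebra R₀ R₀' := ρ₀.toAlgebra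
      exact IsBaseChange.linearMap R₀ R₀'
     isBaseChange₁ := by
      letI : Algebra R₁ R₁' := ρ₁.toAlgebra
      exact IsBaseChange.linearMap R₁ R₁'
     isBaseChange₀₁ := by
      letI : Algebra R₀₁ R₀₁' := ρ₀₁.toAlgebra
      exact IsBaseChange.linearMap R₀₁ R₀₁' }⟩

/-- A free generator of `N₀₁` from a free generator of `N₀`. -/
theorem bijective_toSpanSingleton_of_equiv (G : GlueDatum A R₀ R₁ R₀₁) (ψ : R₀ ≃ₗ[R₀] G.N₀) :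
    Function.Bijective (LinearMap.toSpanSingleton R₀₁ G.N₀₁ (G.r₀ (ψ 1))) := by
  have hc : IsBaseChange R₀₁ ((G.r₀.restrictScalars R₀).comp ψ.toLinearMap) :=
    IsBaseChange.comp (IsBaseChange.ofEquiv ψ) G.isBaseChange₀
  have hu : IsBaseChange R₀₁ (Algebra.linearMap R₀ R₀₁) := IsBaseChange.linearMap R₀ R₀₁
  let E : R₀₁ ≃ₗ[R₀₁] G.N₀₁ := hu.equiv.symm ≪≫ₗ hc.equiv
  have hE : ∀ c : R₀₁, E c = LinearMap.toSpanSingleton R₀₁ G.N₀₁ (G.r₀ (ψ 1)) c := by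
    intro c
    have h1 : hu.equiv.symm c = c ⊗ₜ[R₀] (1 : R₀) := by
      rw [LinearEquiv.symm_apply_eq, IsBaseChange.equiv_tmul, Algebra.linearMap_apply,
        map_one, smul_eq_mul, mul_one]
    show hc.equiv (hu.equiv.symm c) = _
    rw [h1, IsBaseChange.equiv_tmul]
    rfl
  have : (LinearMap.toSpanSingleton R₀₁ G.N₀₁ (G.r₀ (ψ 1)) : R₀₁ → G.N₀₁) = E :=
    funext fun c => (hE c).symm
  rw [this]
  exact E.bijective

/-- Same on the other chart. -/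
theorem bijective_toSpanSingleton_of_equiv' (G : GlueDatum A R₀ R₁ R₀₁) (ψ : R₁ ≃ₗ[R₁] G.N₁) :
    Function.Bijective (LinearMap.toSpanSingleton R₀₁ G.N₀₁ (G.r₁ (ψ 1))) := by
  have hc : IsBaseChange R₀₁ ((G.r₁.restrictScalars R₁).comp ψ.toLinearMap) :=
    IsBaseChange.comp (IsBaseChange.ofEquiv ψ) G.isBaseChange₁
  have hu : IsBaseChange R₀₁ (Algebra.linearMap R₁ R₀₁) := IsBaseChange.linearMap R₁ R₀₁
  let E : R₀₁ ≃ₗ[R₀₁] G.N₀₁ := hu.equiv.symm ≪≫ₗ hc.equiv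
  have hE : ∀ c : R₀₁, E c = LinearMap.toSpanSingleton R₀₁ G.N₀₁ (G.r₁ (ψ 1)) c := by
    intro c
    have h1 : hu.equiv.symm c = c ⊗ₜ[R₁] (1 : R₁) := by
      rw [LinearEquiv.symm_apply_eq, IsBaseChange.equiv_tmul, Algebra.linearMap_apply,
        map_one, smul_eq_mul, mul_one]
    show hc.equiv (hu.equiv.symm c) = _
    rw [h1, IsBaseChange.equiv_tmul]
    rfl
  have : (LinearMap.toSpanSingleton R₀₁ G.N₀₁ (G.r₁ (ψ 1)) : R₀₁ → G.N₀₁) = E :=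
    funext fun c => (hE c).symm
  rw [this]
  exact E.bijective

/-- **Normal form.**  A gluing datum whose base change along `(ρ₀, ρ₁, ρ₀₁)` is the unit
datum, `ρ₀` and `ρ₁` surjective with nil kernels, is a twist of the unit datum by a unit
`u` with `ρ₀₁ u = 1`. -/
theorem exists_unitTwist_isIso (ρ₀ : R₀ →+* R₀') (ρ₁ : R₁ →+* R₁') (ρ₀₁ : R₀₁ →+* R₀₁')
    (hs₀ : Function.Surjective ρ₀) (hn₀ : ∀ x ∈ RingHom.ker ρ₀, IsNilpotent x)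
    (hs₁ : Function.Surjective ρ₁) (hn₁ : ∀ x ∈ RingHom.ker ρ₁, IsNilpotent x)
    (G : GlueDatum A R₀ R₁ R₀₁)
    (h : GlueDatum.IsBC ρ₀ ρ₁ ρ₀₁ G (GlueDatum.unit A' R₀' R₁' R₀₁')) :
    ∃ u : R₀₁ˣ, ρ₀₁ u = 1 ∧ (unitTwist A R₀ R₁ u).IsIso G := by
  obtain ⟨bc⟩ := h
  haveI := G.invertible₀
  haveI := G.invertible₁
  have hb₀ : IsSemilinearBaseChange ρ₀ ρ₀.toSemilinearMap := by
    letI : Algebra R₀ R₀' := ρ₀.toAlgebra
    exact IsBaseChange.linearMap R₀ R₀'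
  have hb₁ : IsSemilinearBaseChange ρ₁ ρ₁.toSemilinearMap := by
    letI : Algebra R₁ R₁' := ρ₁.toAlgebra
    exact IsBaseChange.linearMap R₁ R₁'
  obtain ⟨ψ₀, hψ₀⟩ := Fermat.Agent.S25.H551.exists_linearEquiv_of_semilinear ρ₀ hs₀ hn₀
    (P := R₀) (P' := G.N₀) hb₀ bc.isBaseChange₀
  obtain ⟨ψ₁, hψ₁⟩ := Fermat.Agent.S25.H551.exists_linearEquiv_of_semilinear ρ₁ hs₁ hn₁
    (P := R₁) (P' := G.N₁) hb₁ bc.isBaseChange₁
  set g₀ : G.N₀₁ := G.r₀ (ψ₀ 1) with hg₀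
  set g₁ : G.N₀₁ := G.r₁ (ψ₁ 1) with hg₁
  let E₀ : R₀₁ ≃ₗ[R₀₁] G.N₀₁ :=
    LinearEquiv.ofBijective _ (bijective_toSpanSingleton_of_equiv G ψ₀)
  let E₁ : R₀₁ ≃ₗ[R₀₁] G.N₀₁ :=
    LinearEquiv.ofBijective _ (bijective_toSpanSingleton_of_equiv' G ψ₁)
  have hE₀ : ∀ c : R₀₁, E₀ c = c • g₀ := fun c => rfl
  have hE₁ : ∀ c : R₀₁, E₁ c = c • g₁ := fun c => rfl
  set a : R₀₁ := E₀.symm g₁ with ha
  set b : R₀₁ := E₁.symm g₀ with hb
  have hag : a • g₀ = g₁ := by rw [← hE₀, ha, LinearEquiv.apply_symm_apply]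
  have hbg : b • g₁ = g₀ := by rw [← hE₁, hb, LinearEquiv.apply_symm_apply]
  have hba : b * a = 1 := by
    apply E₀.injective
    rw [hE₀, hE₀, mul_smul, hag, hbg, one_smul]
  let u : R₀₁ˣ := ⟨a, b, by rw [mul_comm]; exact hba, hba⟩
  have hbg₀ : bc.b₀₁ g₀ = (1 : R₀₁') := by
    have h1 : bc.b₀₁ g₀ = algebraMap R₀' R₀₁' (bc.b₀ (ψ₀ 1)) := bc.comm₀ (ψ₀ 1)
    have h2 : bc.b₀ (ψ₀ 1) = ρ₀ 1 := hψ₀ 1
    rw [h1, h2, map_one, map_one]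
  have hbg₁ : bc.b₀₁ g₁ = (1 : R₀₁') := by
    have h1 : bc.b₀₁ g₁ = algebraMap R₁' R₀₁' (bc.b₁ (ψ₁ 1)) := bc.comm₁ (ψ₁ 1)
    have h2 : bc.b₁ (ψ₁ 1) = ρ₁ 1 := hψ₁ 1
    rw [h1, h2, map_one, map_one]
  refine ⟨u, ?_, ⟨{ e₀ := ψ₀
                    e₁ := ψ₁
                    e₀₁ := E₀
                    comm₀ := fun (s : R₀) => ?_
                    comm₁ := fun (s : R₁) => ?_ }⟩⟩
  · have h1 : bc.b₀₁ (a • g₀) = ρ₀₁ a • bc.b₀₁ g₀ := bc.b₀₁.map_smulₛₗ a g₀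
    rw [hag, hbg₁, hbg₀] at h1
    have h2 : (1 : R₀₁') = ρ₀₁ a * 1 := h1
    rw [mul_one] at h2
    exact h2.symm
  · show E₀ (algebraMap R₀ R₀₁ s) = G.r₀ (ψ₀ s)
    have h1 : ψ₀ s = s • ψ₀ 1 := by
      rw [← ψ₀.map_smul, smul_eq_mul, mul_one]
    rw [hE₀, h1, map_smul, algebraMap_smul]
  · show E₀ (a * algebraMap R₁ R₀₁ s) = G.r₁ (ψ₁ s)
    have h1 : ψ₁ s = s • ψ₁ 1 := by
      rw [← ψ₁.map_smul, smul_eq_mul, mul_one]
    rw [hE₀, h1, map_smul, mul_comm, mul_smul, hag, algebraMap_smul]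

end Generic

end

end Fermat.Agent.S27.H551
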