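import Mathlib
import Fermat.Agent.S25.DefsAlg
import Fermat.Agent.S25.H265.GDCCurve
import Fermat.Agent.S25.H671.UnitH0
import Fermat.Agent.S25.H551.AlgDef
import Fermat.Agent.S27.H551.SqZeroGD
import Fermat.Agent.S27.H551.DualTensor

/-!
# S27 / DIM (helper551): first-order deformations of the trivial gluing datum

Curve chart `(B₀, B₁, B₀₁)` over `k`.

* `exists_unitTwist_isIso_of_isBC` : over an augmented `k`-algebra `π : A → k` with nilpotent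
  kernel, a gluing datum with trivial reduction is a twist `unitTwist u`, `π u = 1`.
* `cls` : the class map `k ⊗ B₀₁ → Ȟ¹(unit over k)`.
* `unitTwist_dual_isIso_iff` : over the dual numbers, `unitTwist v ≅ unitTwist v'`
  (`v, v' ≡ 1 mod ε`) iff the `ε`-coefficients of `v` and `v'` have the same class in `Ȟ¹`.
-/

set_option autoImplicit false
set_option linter.style.haveILetI false
set_option linter.unusedSectionVars false

universe u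

open scoped TensorProduct

namespace Fermat.Agent.S27.H551

open Fermat.Agent.S25 Fermat.Agent.S25.H265 Fermat.Agent.S25.H671

noncomputable section

variable {k : Type u} [Field k] {B₀ B₁ B₀₁ : Type u} [CommRing B₀] [CommRing B₁] [CommRing B₀₁]
  [Algebra k B₀] [Algebra k B₁] [Algebra k B₀₁] [Algebra B₀ B₀₁] [Algebra B₁ B₀₁]
  [IsScalarTower k B₀ B₀₁] [IsScalarTower k B₁ B₀₁]

section Aug

variable {A : Type u} [CommRing A] [Algebra k A]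

theorem aug_surjective (π : A →ₐ[k] k) : Function.Surjective π := fun c =>
  ⟨algebraMap k A c, by rw [AlgHom.commutes]; rfl⟩

variable (B₀ B₁ B₀₁) in
/-- The unit gluing datum over `A`, twisted by a unit of `A ⊗ B₀₁`. -/
abbrev curveTwist (A : Type u) [CommRing A] [Algebra k A] (u : (A ⊗[k] B₀₁)ˣ) :
    CurveGD k B₀ B₁ B₀₁ A :=
  unitTwist A (A ⊗[k] B₀) (A ⊗[k] B₁) u

/-- Base change of a twist of the unit datum. -/
theorem isBC_curveTwist {A' : Type u} [CommRing A'] [Algebra k A'] (φ : A →ₐ[k] A')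
    (u : (A ⊗[k] B₀₁)ˣ) :
    CurveGD.IsBC φ (curveTwist B₀ B₁ B₀₁ A u)
      (curveTwist B₀ B₁ B₀₁ A' (Units.map (tensorMapLeft k φ B₀₁).toMonoidHom u)) :=
  isBC_unitTwist _ _ _ (Fermat.Agent.S25.H551.tensorMapLeft_algebraMap k φ B₀ B₀₁)
    (Fermat.Agent.S25.H551.tensorMapLeft_algebraMap k φ B₁ B₀₁) u

/-- **Normal form**: a gluing datum over an augmented algebra with nilpotent augmentation
ideal whose reduction is the unit datum is a twist of the unit datum. -/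
theorem exists_curveTwist_isIso_of_isBC (π : A →ₐ[k] k) {n : ℕ}
    (hπ : (RingHom.ker (π : A →+* k)) ^ n = ⊥) (G : CurveGD k B₀ B₁ B₀₁ A)
    (h : CurveGD.IsBC π G (unitGD k B₀ B₁ B₀₁ k)) :
    ∃ u : (A ⊗[k] B₀₁)ˣ, tensorMapLeft k π B₀₁ u = 1 ∧ (curveTwist B₀ B₁ B₀₁ A u).IsIso G :=
  exists_unitTwist_isIso _ _ _
    (Fermat.Agent.S25.H551.tensorMapLeft_surjective k π (aug_surjective π) B₀)
    (Fermat.Agent.S25.H551.tensorMapLeft_ker_nil k π (aug_surjective π) hπ B₀)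
    (Fermat.Agent.S25.H551.tensorMapLeft_surjective k π (aug_surjective π) B₁)
    (Fermat.Agent.S25.H551.tensorMapLeft_ker_nil k π (aug_surjective π) hπ B₁) G h

end Aug

/-! ## The class in `Ȟ¹` -/

variable (k B₀ B₁ B₀₁) in
/-- The class map `k ⊗ B₀₁ → Ȟ¹(unit)`. -/
def cls : k ⊗[k] B₀₁ → (unitGD k B₀ B₁ B₀₁ k).H1 :=
  fun h => Submodule.Quotient.mk h

theorem cls_add (h h' : k ⊗[k] B₀₁) :
    cls k B₀ B₁ B₀₁ (h + h') = cls k B₀ B₁ B₀₁ h + cls k B₀ B₁ B₀₁ h' := rfl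

theorem cls_sub (h h' : k ⊗[k] B₀₁) :
    cls k B₀ B₁ B₀₁ (h - h') = cls k B₀ B₁ B₀₁ h - cls k B₀ B₁ B₀₁ h' := rfl

theorem cls_zero : cls k B₀ B₁ B₀₁ 0 = 0 := rfl

theorem cls_smul (c : k) (h : k ⊗[k] B₀₁) :
    cls k B₀ B₁ B₀₁ (c • h) = c • cls k B₀ B₁ B₀₁ h := rfl

theorem cls_surjective : Function.Surjective (cls k B₀ B₁ B₀₁) := fun x => by
  obtain ⟨h, rfl⟩ := Submodule.Quotient.mk_surjective
    (LinearMap.range (unitGD k B₀ B₁ B₀₁ k).cech) x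
  exact ⟨h, rfl⟩

theorem cls_eq_zero_iff (h : k ⊗[k] B₀₁) :
    cls k B₀ B₁ B₀₁ h = 0 ↔ ∃ (h₀ : k ⊗[k] B₀) (h₁ : k ⊗[k] B₁),
      h = algebraMap (k ⊗[k] B₀) (k ⊗[k] B₀₁) h₀ - algebraMap (k ⊗[k] B₁) (k ⊗[k] B₀₁) h₁ := by
  have key : cls k B₀ B₁ B₀₁ h = 0 ↔
      (show (unitGD k B₀ B₁ B₀₁ k).N₀₁ from h) ∈ LinearMap.range (unitGD k B₀ B₁ B₀₁ k).cech :=
    Submodule.Quotient.mk_eq_zero _
  rw [key, LinearMap.mem_range]
  constructor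
  · rintro ⟨⟨h₀, h₁⟩, hh⟩
    exact ⟨h₀, h₁, hh.symm.trans (unit_cech_apply h₀ h₁)⟩
  · rintro ⟨h₀, h₁, hh⟩
    exact ⟨(h₀, h₁), (unit_cech_apply h₀ h₁).trans hh.symm⟩

theorem cls_eq_iff (h h' : k ⊗[k] B₀₁) :
    cls k B₀ B₁ B₀₁ h = cls k B₀ B₁ B₀₁ h' ↔ ∃ (h₀ : k ⊗[k] B₀) (h₁ : k ⊗[k] B₁),
      h - h' = algebraMap (k ⊗[k] B₀) (k ⊗[k] B₀₁) h₀ -
        algebraMap (k ⊗[k] B₁) (k ⊗[k] B₀₁) h₁ := by
  rw [← sub_eq_zero, ← cls_sub, cls_eq_zero_iff]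

/-! ## Isomorphism classes of twists over the dual numbers -/

section DualIso

variable {x : B₀} {y : B₁} {e : B₁ →ₐ[k] k}

theorem algebraMap_dUnit (h : k ⊗[k] B₀) :
    algebraMap (DualNum k ⊗[k] B₀) (DualNum k ⊗[k] B₀₁)
        ((dUnit h : (DualNum k ⊗[k] B₀)ˣ) : DualNum k ⊗[k] B₀) =
      1 + dEps k B₀₁ (algebraMap (k ⊗[k] B₀) (k ⊗[k] B₀₁) h) := by
  rw [val_dUnit, map_add, map_one, dEps_algebraMap]

theorem algebraMap_dUnit' (h : k ⊗[k] B₁) :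
    algebraMap (DualNum k ⊗[k] B₁) (DualNum k ⊗[k] B₀₁)
        ((dUnit h : (DualNum k ⊗[k] B₁)ˣ) : DualNum k ⊗[k] B₁) =
      1 + dEps k B₀₁ (algebraMap (k ⊗[k] B₁) (k ⊗[k] B₀₁) h) := by
  rw [val_dUnit, map_add, map_one, dEps_algebraMap]

/-- Twists with the same class are isomorphic (no hypothesis on the chart). -/
theorem curveTwist_dual_isIso_of_cls_eq (v v' : (DualNum k ⊗[k] B₀₁)ˣ)
    (hv : dRed k B₀₁ v = 1) (hv' : dRed k B₀₁ v' = 1)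
    (h : cls k B₀ B₁ B₀₁ (dCoeff k B₀₁ v) = cls k B₀ B₁ B₀₁ (dCoeff k B₀₁ v')) :
    (curveTwist B₀ B₁ B₀₁ (DualNum k) v).IsIso (curveTwist B₀ B₁ B₀₁ (DualNum k) v') := by
  obtain ⟨h₀, h₁, hh⟩ := (cls_eq_iff _ _).1 h
  rw [unitTwist_isIso_iff]
  refine ⟨dUnit (-h₀), dUnit (-h₁), ?_⟩
  rw [algebraMap_dUnit, algebraMap_dUnit', eq_one_add_dEps_of_dRed hv,
    eq_one_add_dEps_of_dRed hv']
  set E := dEps k B₀₁ with hE
  set c := dCoeff k B₀₁ (v : DualNum k ⊗[k] B₀₁) with hc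
  set c' := dCoeff k B₀₁ (v' : DualNum k ⊗[k] B₀₁) with hc'
  have e1 : E c * E (algebraMap (k ⊗[k] B₀) (k ⊗[k] B₀₁) (-h₀)) = 0 := dEps_mul_dEps _ _
  have e2 : E c' * E (algebraMap (k ⊗[k] B₁) (k ⊗[k] B₀₁) (-h₁)) = 0 := dEps_mul_dEps _ _
  have e3 : E c + E (algebraMap (k ⊗[k] B₀) (k ⊗[k] B₀₁) (-h₀)) =
      E c' + E (algebraMap (k ⊗[k] B₁) (k ⊗[k] B₀₁) (-h₁)) := by
    rw [← map_add, ← map_add]
    congr 1
    rw [map_neg, map_neg]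
    have : c = c' + (algebraMap (k ⊗[k] B₀) (k ⊗[k] B₀₁) h₀ -
        algebraMap (k ⊗[k] B₁) (k ⊗[k] B₀₁) h₁) := by rw [← hh]; abel
    rw [this]; abel
  calc (1 + E c) * (1 + E (algebraMap (k ⊗[k] B₀) (k ⊗[k] B₀₁) (-h₀)))
      = 1 + (E c + E (algebraMap (k ⊗[k] B₀) (k ⊗[k] B₀₁) (-h₀))) +
          E c * E (algebraMap (k ⊗[k] B₀) (k ⊗[k] B₀₁) (-h₀)) := by ring
    _ = 1 + (E c' + E (algebraMap (k ⊗[k] B₁) (k ⊗[k] B₀₁) (-h₁))) +
          E c' * E (algebraMap (k ⊗[k] B₁) (k ⊗[k] B₀₁) (-h₁)) := by rw [e1, e2, e3]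
    _ = (1 + E c') * (1 + E (algebraMap (k ⊗[k] B₁) (k ⊗[k] B₀₁) (-h₁))) := by ring

theorem nontrivial_tensor_self (hC : IsCurveChart k B₀ B₁ B₀₁ x y e) :
    Nontrivial (k ⊗[k] B₀) := by
  haveI := hC.isDomain₀
  exact (Algebra.TensorProduct.lid k B₀).toEquiv.nontrivial

/-- Isomorphic twists have the same class. -/
theorem cls_eq_of_curveTwist_dual_isIso [IsAlgClosed k] (hC : IsCurveChart k B₀ B₁ B₀₁ x y e)
    (v v' : (DualNum k ⊗[k] B₀₁)ˣ)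
    (hv : dRed k B₀₁ v = 1) (hv' : dRed k B₀₁ v' = 1)
    (h : (curveTwist B₀ B₁ B₀₁ (DualNum k) v).IsIso (curveTwist B₀ B₁ B₀₁ (DualNum k) v')) :
    cls k B₀ B₁ B₀₁ (dCoeff k B₀₁ v) = cls k B₀ B₁ B₀₁ (dCoeff k B₀₁ v') := by
  rw [unitTwist_isIso_iff] at h
  obtain ⟨a₀, a₁, ha⟩ := h
  -- reduce mod ε
  have hred := congrArg (dRed k B₀₁) ha
  rw [map_mul, map_mul, hv, hv', one_mul, one_mul, dRed_algebraMap, dRed_algebraMap] at hred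
  obtain ⟨c, hc₀, hc₁⟩ := exists_eq_algebraMap_of_glue_tensor hC k _ _ hred
  have hc : c ≠ 0 := by
    rintro rfl
    rw [map_zero] at hc₀
    have hu : IsUnit (dRed k B₀ (a₀ : DualNum k ⊗[k] B₀)) := a₀.isUnit.map (dRed k B₀)
    rw [hc₀] at hu
    haveI := nontrivial_tensor_self hC
    exact not_isUnit_zero hu
  -- ε-coefficients
  have hco := congrArg (dCoeff k B₀₁) ha
  rw [dCoeff_mul, dCoeff_mul, hv, hv', one_mul, one_mul, dCoeff_algebraMap, dCoeff_algebraMap,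
    dRed_algebraMap, dRed_algebraMap, hc₀, hc₁, ← IsScalarTower.algebraMap_apply,
    ← IsScalarTower.algebraMap_apply, mul_comm _ (algebraMap k (k ⊗[k] B₀₁) c),
    mul_comm _ (algebraMap k (k ⊗[k] B₀₁) c), ← Algebra.smul_def, ← Algebra.smul_def] at hco
  -- hco : alg (dCoeff a₀) + c • dCoeff v = alg (dCoeff a₁) + c • dCoeff v'
  have h1 : c • (dCoeff k B₀₁ (v : DualNum k ⊗[k] B₀₁) - dCoeff k B₀₁ (v' : DualNum k ⊗[k] B₀₁)) =
      algebraMap (k ⊗[k] B₀) (k ⊗[k] B₀₁) (-(dCoeff k B₀ (a₀ : DualNum k ⊗[k] B₀))) -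
        algebraMap (k ⊗[k] B₁) (k ⊗[k] B₀₁) (-(dCoeff k B₁ (a₁ : DualNum k ⊗[k] B₁))) := by
    rw [smul_sub, map_neg, map_neg]
    have := sub_eq_zero.2 hco
    rw [← sub_eq_zero]
    rw [← this]
    abel
  have h2 : cls k B₀ B₁ B₀₁ (c • (dCoeff k B₀₁ (v : DualNum k ⊗[k] B₀₁) -
      dCoeff k B₀₁ (v' : DualNum k ⊗[k] B₀₁))) = 0 :=
    (cls_eq_zero_iff _).2 ⟨_, _, h1⟩
  rw [cls_smul, cls_sub, smul_eq_zero] at h2
  rcases h2 with h2 | h2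
  · exact absurd h2 hc
  · exact sub_eq_zero.1 h2

theorem curveTwist_dual_isIso_iff [IsAlgClosed k] (hC : IsCurveChart k B₀ B₁ B₀₁ x y e)
    (v v' : (DualNum k ⊗[k] B₀₁)ˣ)
    (hv : dRed k B₀₁ v = 1) (hv' : dRed k B₀₁ v' = 1) :
    (curveTwist B₀ B₁ B₀₁ (DualNum k) v).IsIso (curveTwist B₀ B₁ B₀₁ (DualNum k) v') ↔
      cls k B₀ B₁ B₀₁ (dCoeff k B₀₁ v) = cls k B₀ B₁ B₀₁ (dCoeff k B₀₁ v') :=
  ⟨cls_eq_of_curveTwist_dual_isIso hC v v' hv hv', curveTwist_dual_isIso_of_cls_eq v v' hv hv'⟩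

end DualIso

end

end Fermat.Agent.S27.H551
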