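import Mathlib
import Fermat.Agent.S25.DefsAlg
import Fermat.Agent.S25.H265.GDCCurve
import Fermat.Agent.S25.H265.GDCBaseChange
import Fermat.Agent.S25.H671.UnitH0
import Fermat.Agent.S27.H551.AlgTangentCore

/-!
# S27 / DIM (helper551): the tangent space of the Picard functor is `Ȟ¹(O)` — pure algebra

`k` algebraically closed, `(B₀, B₁, B₀₁, x, y, e)` a curve chart, `S` a `k`-algebra with a
`k`-point `z : S →ₐ[k] k`, and `G` a gluing datum over `S` (on `C_S`) such that

* (triv) the fibre of `G` at `z` is the unit datum;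
* (inj)  two `k[ε]`-points `φ, ψ` of `S` over `z` with `φ^* G ≅ ψ^* G` are equal;
* (surj) every gluing datum over `k[ε]` with trivial reduction is `φ^* G` for a `k[ε]`-point
  `φ` of `S` over `z`.

Then the tangent space of `S` at `z` is isomorphic to `Ȟ¹(unit datum over k)`:

* `tanSpace z` : the `k`-vector space of `k`-linear `δ : S → k` with
  `δ (a b) = z a δ b + z b δ a`;
* `tangentEquiv` : `Nonempty (tanSpace z ≃ₗ[k] Ȟ¹)`;
* `finrank_tanSpace` : `finrank k (tanSpace z) = finrank k Ȟ¹`;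
* `finrank_derivation` : the same for `Derivation k S k` (`k` an `S`-module through `z`).
-/

set_option autoImplicit false
set_option linter.style.haveILetI false
set_option linter.unusedSectionVars false

universe u

open scoped TensorProduct

namespace Fermat.Agent.S27.H551

open Fermat.Agent.S25 Fermat.Agent.S25.H265 Fermat.Agent.S25.H671

noncomputable section

variable {k : Type u} [Field k] {S : Type u} [CommRing S] [Algebra k S]

/-! ## Tangent vectors -/

/-- The tangent space of `S` at the `k`-point `z`: point derivations. -/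
def tanSpace (z : S →ₐ[k] k) : Submodule k (S →ₗ[k] k) where
  carrier := {δ | ∀ a b, δ (a * b) = z a * δ b + z b * δ a}
  add_mem' := by
    intro δ δ' h h' a b
    rw [LinearMap.add_apply, LinearMap.add_apply, LinearMap.add_apply, h a b, h' a b]
    ring
  zero_mem' := by
    intro a b
    simp
  smul_mem' := by
    intro c δ h a b
    rw [LinearMap.smul_apply, LinearMap.smul_apply, LinearMap.smul_apply, h a b, smul_eq_mul,
      smul_eq_mul, smul_eq_mul]
    ring

theorem mem_tanSpace {z : S →ₐ[k] k} {δ : S →ₗ[k] k} :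
    δ ∈ tanSpace z ↔ ∀ a b, δ (a * b) = z a * δ b + z b * δ a := Iff.rfl

theorem tanSpace_map_one {z : S →ₐ[k] k} (δ : tanSpace z) : δ.1 1 = 0 := by
  have h := mem_tanSpace.1 δ.2 (1 : S) (1 : S)
  rw [mul_one, show z 1 = 1 from map_one z, one_mul] at h
  have h2 : δ.1 1 + 0 = δ.1 1 + δ.1 1 := by rw [add_zero]; exact h
  exact (add_left_cancel h2).symm

/-- The `k[ε]`-point attached to a tangent vector: `s ↦ z s + δ s ε`. -/
def tanHom (z : S →ₐ[k] k) (δ : tanSpace z) : S →ₐ[k] DualNum k :=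
  AlgHom.ofLinearMap ((dInl k).toLinearMap ∘ₗ z.toLinearMap + (dInr k) ∘ₗ δ.1)
    (by
      show dInl k (z 1) + dInr k (δ.1 1) = 1
      rw [tanSpace_map_one, map_zero, add_zero, map_one, map_one])
    (by
      intro a b
      show dInl k (z (a * b)) + dInr k (δ.1 (a * b)) =
        (dInl k (z a) + dInr k (δ.1 a)) * (dInl k (z b) + dInr k (δ.1 b))
      apply dualNum_ext
      · simp only [map_add, map_mul, dAug_dInl, dAug_dInr, add_zero]
      · rw [dSnd_mul]
        simp only [map_add, dAug_dInl, dAug_dInr, dSnd_dInl, dSnd_dInr, add_zero, zero_add]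
        rw [δ.2 a b]
        ring)

theorem tanHom_apply (z : S →ₐ[k] k) (δ : tanSpace z) (s : S) :
    tanHom z δ s = dInl k (z s) + dInr k (δ.1 s) := rfl

@[simp] theorem dAug_tanHom (z : S →ₐ[k] k) (δ : tanSpace z) (s : S) :
    dAug k (tanHom z δ s) = z s := by
  rw [tanHom_apply, map_add, dAug_dInl, dAug_dInr, add_zero]

@[simp] theorem dSnd_tanHom (z : S →ₐ[k] k) (δ : tanSpace z) (s : S) :
    dSnd k (tanHom z δ s) = δ.1 s := by
  rw [tanHom_apply, map_add, dSnd_dInl, dSnd_dInr, zero_add]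

theorem dAug_comp_tanHom (z : S →ₐ[k] k) (δ : tanSpace z) : (dAug k).comp (tanHom z δ) = z :=
  AlgHom.ext fun s => dAug_tanHom z δ s

theorem tanHom_injective (z : S →ₐ[k] k) : Function.Injective (tanHom z) := by
  intro δ δ' h
  apply Subtype.ext
  apply LinearMap.ext
  intro s
  rw [← dSnd_tanHom z δ s, ← dSnd_tanHom z δ' s, h]

/-- The tangent vector of a `k[ε]`-point over `z`. -/
def tanOfHom (z : S →ₐ[k] k) (φ : S →ₐ[k] DualNum k) (hφ : (dAug k).comp φ = z) : tanSpace z :=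
  ⟨(dSnd k) ∘ₗ φ.toLinearMap, by
    intro a b
    have ha : dAug k (φ a) = z a := by rw [← hφ]; rfl
    have hb : dAug k (φ b) = z b := by rw [← hφ]; rfl
    show dSnd k (φ (a * b)) = z a * dSnd k (φ b) + z b * dSnd k (φ a)
    rw [map_mul, dSnd_mul, ha, hb]
    ring⟩

theorem tanHom_tanOfHom (z : S →ₐ[k] k) (φ : S →ₐ[k] DualNum k) (hφ : (dAug k).comp φ = z) :
    tanHom z (tanOfHom z φ hφ) = φ := by
  apply AlgHom.ext
  intro s
  have hs : dAug k (φ s) = z s := by rw [← hφ]; rfl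
  rw [tanHom_apply, ← hs]
  exact dInl_dAug_add_dInr_dSnd (φ s)

/-- `k` as an `S`-module through the `k`-point `z`. -/
@[reducible] def ptModule (z : S →ₐ[k] k) : Module S k := Module.compHom k z.toRingHom

theorem ptModule_isScalarTower (z : S →ₐ[k] k) :
    letI := ptModule z
    IsScalarTower k S k := by
  letI := ptModule z
  refine ⟨fun a s m => ?_⟩
  show z (a • s) * m = a • (z s * m)
  rw [map_smul, smul_mul_assoc]

/-- Point derivations are the derivations `S → k` for the module structure of `k` through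
`z`. -/
def derivationEquiv (z : S →ₐ[k] k) :
    letI := ptModule z
    haveI := ptModule_isScalarTower z
    Derivation k S k ≃ₗ[k] tanSpace z :=
  letI := ptModule z
  haveI := ptModule_isScalarTower z
  { toFun := fun d => ⟨d.toLinearMap, fun a b => by
      have := d.leibniz a b
      rw [add_comm]
      exact this.trans (by rw [add_comm]; rfl)⟩
    invFun := fun δ =>
      { toLinearMap := δ.1
        map_one_eq_zero' := tanSpace_map_one δ
        leibniz' := fun a b => by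
          show δ.1 (a * b) = z a * δ.1 b + z b * δ.1 a
          exact δ.2 a b }
    left_inv := fun d => by ext; rfl
    right_inv := fun δ => by ext; rfl
    map_add' := fun d d' => rfl
    map_smul' := fun c d => rfl }

/-! ## The first-order neighbourhood of `z` -/

section Nbhd

variable (z : S →ₐ[k] k)

/-- The square of the maximal ideal of the point `z`. -/
def kerSq : Ideal S := (RingHom.ker (z : S →+* k)) ^ 2

theorem kerSq_le_ker : kerSq z ≤ RingHom.ker (z : S →+* k) :=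
  Ideal.pow_le_self two_ne_zero

/-- The first-order neighbourhood `S / 𝔪_z²`. -/
abbrev nbhdRing : Type u := S ⧸ kerSq z

/-- `S → S / 𝔪_z²`. -/
def nbhdMk : S →ₐ[k] nbhdRing z := Ideal.Quotient.mkₐ k (kerSq z)

theorem nbhdMk_surjective : Function.Surjective (nbhdMk z) :=
  Ideal.Quotient.mkₐ_surjective k (kerSq z)

/-- The augmentation `S / 𝔪_z² → k`. -/
def nbhdAug : nbhdRing z →ₐ[k] k :=
  Ideal.Quotient.liftₐ (kerSq z) z (fun _ ha => (RingHom.mem_ker).1 (kerSq_le_ker z ha))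

@[simp] theorem nbhdAug_nbhdMk (s : S) : nbhdAug z (nbhdMk z s) = z s := rfl

theorem nbhdAug_comp_nbhdMk : (nbhdAug z).comp (nbhdMk z) = z := AlgHom.ext fun _ => rfl

theorem nbhdMk_eq_zero {s : S} (hs : s ∈ kerSq z) : nbhdMk z s = 0 :=
  Ideal.Quotient.eq_zero_iff_mem.2 hs

theorem ker_nbhdAug_sq : (RingHom.ker (nbhdAug z : nbhdRing z →+* k)) ^ 2 = ⊥ := by
  rw [pow_two, eq_bot_iff, Ideal.mul_le]
  intro a ha b hb
  rw [RingHom.mem_ker] at ha hb
  obtain ⟨s, rfl⟩ := nbhdMk_surjective z a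
  obtain ⟨t, rfl⟩ := nbhdMk_surjective z b
  have hs : s ∈ RingHom.ker (z : S →+* k) := RingHom.mem_ker.2 ha
  have ht : t ∈ RingHom.ker (z : S →+* k) := RingHom.mem_ker.2 hb
  rw [Ideal.mem_bot, ← map_mul]
  apply nbhdMk_eq_zero
  rw [kerSq, pow_two]
  exact Ideal.mul_mem_mul hs ht

theorem tanHom_eq_zero_of_mem_kerSq (δ : tanSpace z) {a : S} (ha : a ∈ kerSq z) :
    tanHom z δ a = 0 := by
  have hle : kerSq z ≤ RingHom.ker (tanHom z δ : S →+* DualNum k) := by
    rw [kerSq, pow_two, Ideal.mul_le]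
    intro s hs t ht
    rw [RingHom.mem_ker] at hs ht ⊢
    have h1 : dAug k (tanHom z δ s) = 0 := by rw [dAug_tanHom]; exact hs
    have h2 : dAug k (tanHom z δ t) = 0 := by rw [dAug_tanHom]; exact ht
    show tanHom z δ (s * t) = 0
    rw [map_mul]
    exact mul_eq_zero_of_dAug h1 h2
  exact RingHom.mem_ker.1 (hle ha)

/-- The `k[ε]`-point of the first-order neighbourhood attached to a tangent vector. -/
def tanBar (δ : tanSpace z) : nbhdRing z →ₐ[k] DualNum k :=
  Ideal.Quotient.liftₐ (kerSq z) (tanHom z δ) (fun _ ha => tanHom_eq_zero_of_mem_kerSq z δ ha)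

@[simp] theorem tanBar_nbhdMk (δ : tanSpace z) (s : S) :
    tanBar z δ (nbhdMk z s) = tanHom z δ s := rfl

theorem tanBar_comp_nbhdMk (δ : tanSpace z) : (tanBar z δ).comp (nbhdMk z) = tanHom z δ :=
  AlgHom.ext fun _ => rfl

theorem dAug_comp_tanBar (δ : tanSpace z) : (dAug k).comp (tanBar z δ) = nbhdAug z := by
  apply AlgHom.ext
  intro a
  obtain ⟨s, rfl⟩ := nbhdMk_surjective z a
  show dAug k (tanHom z δ s) = z s
  exact dAug_tanHom z δ s

/-- The linear functional on the first-order neighbourhood attached to a tangent vector. -/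
def tanLin (δ : tanSpace z) : nbhdRing z →ₗ[k] k := (dSnd k) ∘ₗ (tanBar z δ).toLinearMap

@[simp] theorem tanLin_nbhdMk (δ : tanSpace z) (s : S) : tanLin z δ (nbhdMk z s) = δ.1 s :=
  dSnd_tanHom z δ s

theorem tanLin_add (δ δ' : tanSpace z) : tanLin z (δ + δ') = tanLin z δ + tanLin z δ' := by
  apply LinearMap.ext
  intro a
  obtain ⟨s, rfl⟩ := nbhdMk_surjective z a
  rw [LinearMap.add_apply, tanLin_nbhdMk, tanLin_nbhdMk, tanLin_nbhdMk]
  rfl

theorem tanLin_smul (c : k) (δ : tanSpace z) : tanLin z (c • δ) = c • tanLin z δ := by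
  apply LinearMap.ext
  intro a
  obtain ⟨s, rfl⟩ := nbhdMk_surjective z a
  rw [LinearMap.smul_apply, tanLin_nbhdMk, tanLin_nbhdMk]
  rfl

theorem dCoeff_tensorMapLeft_tanBar (δ : tanSpace z) (B : Type u) [CommRing B] [Algebra k B]
    (w : nbhdRing z ⊗[k] B) :
    dCoeff k B (tensorMapLeft k (tanBar z δ) B w) = LinearMap.rTensor B (tanLin z δ) w := by
  induction w using TensorProduct.induction_on with
  | zero => simp
  | tmul a b => rfl
  | add w w' hw hw' => rw [map_add, map_add, map_add, hw, hw']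

end Nbhd

/-! ## The main theorem -/

section Main

variable [IsAlgClosed k] {B₀ B₁ B₀₁ : Type u} [CommRing B₀] [CommRing B₁] [CommRing B₀₁]
  [Algebra k B₀] [Algebra k B₁] [Algebra k B₀₁] [Algebra B₀ B₀₁] [Algebra B₁ B₀₁]
  [IsScalarTower k B₀ B₀₁] [IsScalarTower k B₁ B₀₁]
  {x : B₀} {y : B₁} {e : B₁ →ₐ[k] k}

/-- **The tangent space of the Picard functor at the origin is `Ȟ¹(O)`** (pure algebra). -/
theorem exists_tangent_linearEquiv (hC : IsCurveChart k B₀ B₁ B₀₁ x y e)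
    (z : S →ₐ[k] k) (G : CurveGD k B₀ B₁ B₀₁ S)
    (htriv : CurveGD.IsBC z G (unitGD k B₀ B₁ B₀₁ k))
    (hinj : ∀ φ ψ : S →ₐ[k] DualNum k, (dAug k).comp φ = z → (dAug k).comp ψ = z →
      ∀ G' : CurveGD k B₀ B₁ B₀₁ (DualNum k),
        CurveGD.IsBC φ G G' → CurveGD.IsBC ψ G G' → φ = ψ)
    (hsurj : ∀ G' : CurveGD k B₀ B₁ B₀₁ (DualNum k),
      CurveGD.IsBC (dAug k) G' (unitGD k B₀ B₁ B₀₁ k) →
        ∃ φ : S →ₐ[k] DualNum k, (dAug k).comp φ = z ∧ CurveGD.IsBC φ G G') :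
    Nonempty (tanSpace z ≃ₗ[k] (unitGD k B₀ B₁ B₀₁ k).H1) := by
  -- the universal first-order deformation
  obtain ⟨GW, hGW⟩ := curveGD_exists_isBC (B₀ := B₀) (B₁ := B₁) (B₀₁ := B₀₁) (nbhdMk z) G
  have hGWk : CurveGD.IsBC (nbhdAug z) GW (unitGD k B₀ B₁ B₀₁ k) :=
    curveGD_isBC_of_comp_eq (nbhdAug_comp_nbhdMk z).symm hGW htriv
  obtain ⟨u, hu1, hu⟩ := exists_curveTwist_isIso_of_isBC (nbhdAug z) (ker_nbhdAug_sq z) GW hGWk
  have hGu : CurveGD.IsBC (nbhdMk z) G (curveTwist B₀ B₁ B₀₁ (nbhdRing z) u) :=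
    curveGD_isBC_of_isIso_right hGW (isIso_symm hu)
  -- the twist attached to a tangent vector
  let v : tanSpace z → (DualNum k ⊗[k] B₀₁)ˣ := fun δ =>
    Units.map (tensorMapLeft k (tanBar z δ) B₀₁).toMonoidHom u
  have hv : ∀ δ, ((v δ : (DualNum k ⊗[k] B₀₁)ˣ) : DualNum k ⊗[k] B₀₁) =
      tensorMapLeft k (tanBar z δ) B₀₁ u := fun δ => rfl
  have hP : ∀ δ : tanSpace z,
      CurveGD.IsBC (tanHom z δ) G (curveTwist B₀ B₁ B₀₁ (DualNum k) (v δ)) := by
    intro δ
    have h2 := isBC_curveTwist (B₀ := B₀) (B₁ := B₁) (tanBar z δ) u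
    have h3 := curveGD_isBC_comp hGu h2
    rwa [tanBar_comp_nbhdMk] at h3
  have hred : ∀ δ : tanSpace z, dRed k B₀₁ (v δ : DualNum k ⊗[k] B₀₁) = 1 := by
    intro δ
    rw [hv]
    have h1 : (dRed k B₀₁).comp (tensorMapLeft k (tanBar z δ) B₀₁) =
        tensorMapLeft k (nbhdAug z) B₀₁ := by
      rw [← dAug_comp_tanBar z δ, tensorMapLeft_comp]
    have h2 := congrArg (fun f : nbhdRing z ⊗[k] B₀₁ →+* k ⊗[k] B₀₁ =>
      f (u : nbhdRing z ⊗[k] B₀₁)) h1
    exact h2.trans hu1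
  have hcoef : ∀ δ : tanSpace z, dCoeff k B₀₁ (v δ : DualNum k ⊗[k] B₀₁) =
      LinearMap.rTensor B₀₁ (tanLin z δ) (u : nbhdRing z ⊗[k] B₀₁) := by
    intro δ
    rw [hv, dCoeff_tensorMapLeft_tanBar]
  -- the class map
  let Ψ : tanSpace z →ₗ[k] (unitGD k B₀ B₁ B₀₁ k).H1 :=
    { toFun := fun δ => cls k B₀ B₁ B₀₁
        (LinearMap.rTensor B₀₁ (tanLin z δ) (u : nbhdRing z ⊗[k] B₀₁))
      map_add' := fun δ δ' => by
        rw [tanLin_add, LinearMap.rTensor_add, LinearMap.add_apply, cls_add]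
      map_smul' := fun c δ => by
        rw [tanLin_smul, LinearMap.rTensor_smul, LinearMap.smul_apply, cls_smul]
        rfl }
  have hΨ : ∀ δ, Ψ δ = cls k B₀ B₁ B₀₁ (dCoeff k B₀₁ (v δ : DualNum k ⊗[k] B₀₁)) := by
    intro δ
    rw [hcoef]
    rfl
  refine ⟨LinearEquiv.ofBijective Ψ ⟨?_, ?_⟩⟩
  · -- injectivity
    intro δ δ' h
    rw [hΨ, hΨ] at h
    have hiso := curveTwist_dual_isIso_of_cls_eq (B₀ := B₀) (B₁ := B₁) (v δ) (v δ')
      (hred δ) (hred δ') h
    have h1 : CurveGD.IsBC (tanHom z δ) G (curveTwist B₀ B₁ B₀₁ (DualNum k) (v δ')) :=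
      curveGD_isBC_of_isIso_right (hP δ) hiso
    exact tanHom_injective z
      (hinj _ _ (dAug_comp_tanHom z δ) (dAug_comp_tanHom z δ') _ h1 (hP δ'))
  · -- surjectivity
    intro c
    obtain ⟨h, rfl⟩ := cls_surjective (k := k) (B₀ := B₀) (B₁ := B₁) (B₀₁ := B₀₁) c
    set w : (DualNum k ⊗[k] B₀₁)ˣ := dUnit h with hw
    have hbc : CurveGD.IsBC (dAug k) (curveTwist B₀ B₁ B₀₁ (DualNum k) w)
        (unitGD k B₀ B₁ B₀₁ k) := by
      have h1 := isBC_curveTwist (B₀ := B₀) (B₁ := B₁) (dAug k) w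
      have h2 : Units.map (tensorMapLeft k (dAug k) B₀₁).toMonoidHom w = 1 := by
        apply Units.ext
        exact dRed_dUnit h
      rw [h2] at h1
      exact curveGD_isBC_of_isIso_right h1 unitTwist_one_isIso
    obtain ⟨φ, hφz, hφ⟩ := hsurj _ hbc
    refine ⟨tanOfHom z φ hφz, ?_⟩
    rw [hΨ]
    have h1 := hP (tanOfHom z φ hφz)
    rw [tanHom_tanOfHom] at h1
    have hiso := curveGD_isIso_of_isBC h1 hφ
    have := cls_eq_of_curveTwist_dual_isIso hC _ _ (hred _) (dRed_dUnit h) hiso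
    rw [this, dCoeff_dUnit]

/-- Dimension form. -/
theorem finrank_tanSpace (hC : IsCurveChart k B₀ B₁ B₀₁ x y e)
    (z : S →ₐ[k] k) (G : CurveGD k B₀ B₁ B₀₁ S)
    (htriv : CurveGD.IsBC z G (unitGD k B₀ B₁ B₀₁ k))
    (hinj : ∀ φ ψ : S →ₐ[k] DualNum k, (dAug k).comp φ = z → (dAug k).comp ψ = z →
      ∀ G' : CurveGD k B₀ B₁ B₀₁ (DualNum k),
        CurveGD.IsBC φ G G' → CurveGD.IsBC ψ G G' → φ = ψ)
    (hsurj : ∀ G' : CurveGD k B₀ B₁ B₀₁ (DualNum k),
      CurveGD.IsBC (dAug k) G' (unitGD k B₀ B₁ B₀₁ k) →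
        ∃ φ : S →ₐ[k] DualNum k, (dAug k).comp φ = z ∧ CurveGD.IsBC φ G G') :
    Module.finrank k (tanSpace z) = Module.finrank k (unitGD k B₀ B₁ B₀₁ k).H1 := by
  obtain ⟨E⟩ := exists_tangent_linearEquiv hC z G htriv hinj hsurj
  exact E.finrank_eq

/-- Derivation form: `dim_k Der_k(S, k_z) = dim_k Ȟ¹(O)`. -/
theorem finrank_derivation (hC : IsCurveChart k B₀ B₁ B₀₁ x y e)
    (z : S →ₐ[k] k) (G : CurveGD k B₀ B₁ B₀₁ S)
    (htriv : CurveGD.IsBC z G (unitGD k B₀ B₁ B₀₁ k))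
    (hinj : ∀ φ ψ : S →ₐ[k] DualNum k, (dAug k).comp φ = z → (dAug k).comp ψ = z →
      ∀ G' : CurveGD k B₀ B₁ B₀₁ (DualNum k),
        CurveGD.IsBC φ G G' → CurveGD.IsBC ψ G G' → φ = ψ)
    (hsurj : ∀ G' : CurveGD k B₀ B₁ B₀₁ (DualNum k),
      CurveGD.IsBC (dAug k) G' (unitGD k B₀ B₁ B₀₁ k) →
        ∃ φ : S →ₐ[k] DualNum k, (dAug k).comp φ = z ∧ CurveGD.IsBC φ G G') :
    letI := ptModule z
    haveI := ptModule_isScalarTower z
    Module.finrank k (Derivation k S k) = Module.finrank k (unitGD k B₀ B₁ B₀₁ k).H1 := by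
  letI := ptModule z
  haveI := ptModule_isScalarTower z
  rw [(derivationEquiv z).finrank_eq]
  exact finrank_tanSpace hC z G htriv hinj hsurj

end Main

end

end Fermat.Agent.S27.H551
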