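import Fermat.Agent.S27.Dim.Spec
import Fermat.Agent.S25.H265.GDCDeg
import Fermat.Agent.S25.H265.GDCRig
import Fermat.Agent.S25.H550.DegConst
import Fermat.Agent.S27.H551.AlgTangent

/-!
# S27 / DIM (helper551): `TAN` from `CHART-AT`, `LOC`, `PTS-DICT-A` (no `TWIST` needed)

`tan_of_chartAt_loc_ptsDictA : Stmt.ChartAt k → Stmt.Loc k → Stmt.PtsDictA k → Stmt.Tan k`

(the leaves of `Fermat/Agent/S27/Dim/Spec.lean`), via the pure-algebra tangent theorem
`H551.finrank_derivation`.  Also: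

* `curveTwist_rigidifiable` : twists of the unit datum are rigidifiable;
* `rigidifiable_of_isBC_unit`, `deg0_of_isBC_unit` : a gluing datum over an augmented
  `k`-algebra with nil augmentation ideal whose reduction is the unit datum is rigidifiable
  and of degree zero.
-/

set_option autoImplicit false
set_option linter.style.haveILetI false
set_option linter.unusedSectionVars false

universe u

open CategoryTheory CategoryTheory.Limits AlgebraicGeometry AlgebraicGeometry.RelPicard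
  NeronModelInfra GoodReductionJacobian
open scoped TensorProduct

namespace Fermat.Agent.S27.H551

open Fermat.Agent.S25 Fermat.Agent.S25.H265 Fermat.Agent.S25.H671 Fermat.Agent.S27.H566

noncomputable section

section Alg

variable {k : Type u} [Field k] {B₀ B₁ B₀₁ : Type u} [CommRing B₀] [CommRing B₁] [CommRing B₀₁]
  [Algebra k B₀] [Algebra k B₁] [Algebra k B₀₁] [Algebra B₀ B₀₁] [Algebra B₁ B₀₁]
  [IsScalarTower k B₀ B₀₁] [IsScalarTower k B₁ B₀₁]
  {A : Type u} [CommRing A] [Algebra k A]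

/-- Twists of the unit datum are rigidifiable. -/
theorem curveTwist_rigidifiable (e : B₁ →ₐ[k] k) (u : (A ⊗[k] B₀₁)ˣ) :
    (curveTwist B₀ B₁ B₀₁ A u).Rigidifiable e := by
  refine ⟨(epsHom e A).toRingHom.toSemilinearMap, ?_⟩
  show IsSemilinearBaseChange (epsHom e A).toRingHom (epsHom e A).toRingHom.toSemilinearMap
  unfold IsSemilinearBaseChange
  letI : Algebra (A ⊗[k] B₁) A := (epsHom e A).toRingHom.toAlgebra
  exact IsBaseChange.linearMap (A ⊗[k] B₁) A

/-- A gluing datum with trivial reduction modulo a nilpotent augmentation ideal is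
rigidifiable. -/
theorem rigidifiable_of_isBC_unit (e : B₁ →ₐ[k] k) (π : A →ₐ[k] k) {n : ℕ}
    (hπ : (RingHom.ker (π : A →+* k)) ^ n = ⊥) (G : CurveGD k B₀ B₁ B₀₁ A)
    (h : CurveGD.IsBC π G (unitGD k B₀ B₁ B₀₁ k)) : G.Rigidifiable e := by
  obtain ⟨u, -, hu⟩ := exists_curveTwist_isIso_of_isBC π hπ G h
  exact rigidifiable_of_isIso hu (curveTwist_rigidifiable e u)

/-- A gluing datum with trivial reduction modulo a nil augmentation ideal has degree zero on
all fibres. -/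
theorem deg0_of_isBC_unit (π : A →ₐ[k] k)
    (hπ : ∀ a ∈ RingHom.ker (π : A →+* k), IsNilpotent a) (G : CurveGD k B₀ B₁ B₀₁ A)
    (h : CurveGD.IsBC π G (unitGD k B₀ B₁ B₀₁ k)) : G.Deg0 := by
  intro K _ _ χ G'' hbc
  have hfac : χ = (Algebra.ofId k K).comp π := by
    apply AlgHom.ext
    intro a
    have h1 : a - algebraMap k A (π a) ∈ RingHom.ker (π : A →+* k) := by
      rw [RingHom.mem_ker]
      show π (a - algebraMap k A (π a)) = 0
      rw [map_sub, AlgHom.commutes, sub_eq_zero]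
      rfl
    obtain ⟨m, hm⟩ := hπ _ h1
    have h2 : χ (a - algebraMap k A (π a)) = 0 := by
      have : χ (a - algebraMap k A (π a)) ^ m = 0 := by rw [← map_pow, hm, map_zero]
      exact eq_zero_of_pow_eq_zero this
    rw [map_sub, sub_eq_zero, AlgHom.commutes] at h2
    rw [h2]
    rfl
  have h3 : CurveGD.IsBC (Algebra.ofId k K) (unitGD k B₀ B₁ B₀₁ k) G'' :=
    curveGD_isBC_of_comp_eq hfac h hbc
  have h4 : CurveGD.IsBC (Algebra.ofId k K) (unitGD k B₀ B₁ B₀₁ k) (unitGD k B₀ B₁ B₀₁ K) :=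
    Fermat.Agent.S25.H550.isBC_unit (Algebra.ofId k K)
  have h5 : G''.IsIso (unitGD k B₀ B₁ B₀₁ K) := curveGD_isIso_of_isBC h3 h4
  rw [degree_eq_of_isIso h5]
  exact sub_self _

end Alg

section Glue

variable (k : Type u) [Field k]

theorem isNilpotent_of_dAug_eq_zero {a : DualNum k} (ha : dAug k a = 0) : IsNilpotent a :=
  ⟨2, by rw [pow_two]; exact mul_eq_zero_of_dAug ha ha⟩

theorem specMap_algHom_injective {R A : Type u} [CommRing R] [Algebra k R] [CommRing A]
    [Algebra k A] {φ ψ : R →ₐ[k] A}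
    (h : Spec.map (CommRingCat.ofHom φ.toRingHom) = Spec.map (CommRingCat.ofHom ψ.toRingHom)) :
    φ = ψ := by
  have h1 := Spec.map_injective h
  have h2 : φ.toRingHom = ψ.toRingHom := congrArg CommRingCat.Hom.hom h1
  exact AlgHom.coe_ringHom_injective h2

/-- **TAN from CHART-AT, LOC and PTS-DICT-A** (the leaf TWIST is not needed). -/
theorem tan_of_chartAt_loc_ptsDictA (hCA : Dim.Stmt.ChartAt k) (hLoc : Dim.Stmt.Loc k)
    (hPD : Dim.Stmt.PtsDictA k) : Dim.Stmt.Tan k := by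
  intro _ C c _ _ _ ε Ch D hrep _ _ _
  obtain ⟨hP1, hP2, hP3, hP4, hP5⟩ := hPD c ε Ch D hrep
  obtain ⟨R, iR1, iR2, j, hj, x, hjf, hxj⟩ := hCA D.toBase D.zeroSection D.zeroSection_toBase
  refine ⟨R, iR1, iR2, j, hj, hjf, x, ?_⟩
  let tR : SchemeHomOver (specStr k R) D.toBase := ⟨j, hjf⟩
  obtain ⟨G, hG⟩ := hP1 R tR
  have hC := Ch.isCurveChart
  -- points through the chart
  have hpt : ∀ (A : Type u) [CommRing A] [Algebra k A] (φ : R →ₐ[k] A)
      (G' : CurveGD k Ch.B₀ Ch.B₁ Ch.B₀₁ A), CurveGD.IsBC φ G G' →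
      Corr Ch A (hrep.poincare.pullbackAlong (postComp tR (specHomOver k φ))).L G' :=
    fun A _ _ φ G' h => hP4 R A φ tR G G' hG h
  -- the zero point
  have hzero : postComp tR (specHomOver k x) = Dim.zeroPt D := Subtype.ext hxj
  -- (triv)
  have htriv : CurveGD.IsBC x G (unitGD k Ch.B₀ Ch.B₁ Ch.B₀₁ k) := by
    obtain ⟨G₀, hG₀⟩ := curveGD_exists_isBC x G
    have h1 := hpt k x G₀ hG₀
    rw [hzero] at h1
    have h2 : G₀.IsIso (Dim.unitK k Ch.B₀ Ch.B₁ Ch.B₀₁) := (hP3 k _ _ G₀ _ h1 hP5).1 rfl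
    exact curveGD_isBC_of_isIso_right hG₀ h2
  -- (inj)
  have hinj : ∀ φ ψ : R →ₐ[k] DualNum k, (dAug k).comp φ = x → (dAug k).comp ψ = x →
      ∀ G' : CurveGD k Ch.B₀ Ch.B₁ Ch.B₀₁ (DualNum k),
        CurveGD.IsBC φ G G' → CurveGD.IsBC ψ G G' → φ = ψ := by
    intro φ ψ _ _ G' h1 h2
    have e1 := hpt _ φ G' h1
    have e2 := hpt _ ψ G' h2
    have e3 : postComp tR (specHomOver k φ) = postComp tR (specHomOver k ψ) :=
      (hP3 _ _ _ G' G' e1 e2).2 (isIso_refl G')
    have e4 : Spec.map (CommRingCat.ofHom φ.toRingHom) ≫ j =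
        Spec.map (CommRingCat.ofHom ψ.toRingHom) ≫ j := congrArg Subtype.val e3
    exact specMap_algHom_injective k ((cancel_mono j).1 e4)
  -- (surj)
  have hsurj : ∀ G' : CurveGD k Ch.B₀ Ch.B₁ Ch.B₀₁ (DualNum k),
      CurveGD.IsBC (dAug k) G' (unitGD k Ch.B₀ Ch.B₁ Ch.B₀₁ k) →
        ∃ φ : R →ₐ[k] DualNum k, (dAug k).comp φ = x ∧ CurveGD.IsBC φ G G' := by
    intro G' hG'
    have hnil : ∀ a ∈ RingHom.ker (dAug k).toRingHom, IsNilpotent a := fun a ha =>
      isNilpotent_of_dAug_eq_zero k (RingHom.mem_ker.1 ha)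
    have hrig : G'.Rigidifiable Ch.e :=
      rigidifiable_of_isBC_unit Ch.e (dAug k) ker_dAug_sq G' hG'
    have hdeg : G'.Deg0 := deg0_of_isBC_unit (dAug k)
      (fun a ha => isNilpotent_of_dAug_eq_zero k (RingHom.mem_ker.1 ha)) G' hG'
    obtain ⟨t, ht⟩ := hP2 (DualNum k) G' hrig hdeg
    have h1 := hP4 (DualNum k) k (dAug k) t G' _ ht hG'
    have h2 : postComp t (specHomOver k (dAug k)) = Dim.zeroPt D :=
      (hP3 k _ _ _ _ h1 hP5).2 (isIso_refl _)
    have h3 : Spec.map (CommRingCat.ofHom (dAug k).toRingHom) ≫ t.1 =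
        Spec.map (CommRingCat.ofHom x.toRingHom) ≫ j :=
      (congrArg Subtype.val h2).trans hxj.symm
    obtain ⟨φ, hφ, hφx⟩ := hLoc D.toBase R j hjf x (DualNum k) (dAug k) hnil t h3
    refine ⟨φ, hφx, ?_⟩
    obtain ⟨G'', hG''⟩ := curveGD_exists_isBC φ G
    have h4 := hpt _ φ G'' hG''
    have h5 : postComp tR (specHomOver k φ) = t := Subtype.ext hφ.symm
    rw [h5] at h4
    have h6 : G''.IsIso G' := (hP3 _ t t G'' G' h4 ht).1 rfl
    exact curveGD_isBC_of_isIso_right hG'' h6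
  exact finrank_derivation hC x G htriv hinj hsurj

end Glue

end

end Fermat.Agent.S27.H551
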