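import Fermat.Agent.S27.Spec
import Fermat.Agent.S27.Dim.D1
import Fermat.Agent.S27.H565.ChartLoc
import Fermat.Agent.S27.H446.PtsDictA
import Fermat.Agent.S27.H551.TanGlue

/-!
# S27 / block DIM closed (helper551)

* `tan k : Dim.Stmt.Tan k` — the Jacobian has a tangent chart of dimension `dim Ȟ¹(O)`;
* `dimMain k : Dim.Stmt.Main k`;
* `dim k : Stmt.Dim k` — the row leaf DIM of `Fermat/Agent/S27/Spec.lean`.

Assembly of: `Dim.d1` (helper566/helper358), `H565.chartAt`, `H565.loc` (helper565),
`H446.ptsDictA` (helper446), `H551.tan_of_chartAt_loc_ptsDictA` (helper551).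
-/

set_option autoImplicit false

universe u

namespace Fermat.Agent.S27.H551

/-- **TAN**, unconditional. -/
theorem tan (k : Type u) [Field k] : Dim.Stmt.Tan k :=
  tan_of_chartAt_loc_ptsDictA k (H565.chartAt k) (H565.loc k) (H446.ptsDictA k)

/-- **DIM** (block statement), unconditional. -/
theorem dimMain (k : Type u) [Field k] : Dim.Stmt.Main k :=
  Dim.main_of_tan_d1 k (tan k)

/-- **DIM**: the row leaf `Stmt.Dim k`. -/
theorem dim (k : Type u) [Field k] : Stmt.Dim k := by
  intro _ C c _ _ _ ε Ch D hrep hs hp hc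
  exact dimMain k c ε Ch D hrep hs hp hc

end Fermat.Agent.S27.H551
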